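/-
MAZ free layer, brick F-E0 (CUSP) (helper22): THE CUSPIDAL CLASS HAS FINITE ORDER.

`c₀ = cl((∞) - (0)) ∈ J₀(p)(ℚbar)` (helper89's `HeckeCusp89.c0 p`) is killed by `p - 1`, because
`(p - 1)((∞) - (0)) = div(Δ(q^p)/Δ(q))` (helper24's `Ogg24.pred_nsmul_c0`, proved from the divisor
of the modular unit `Ogg24.ord_uP_eq`).  This file only repackages that statement in the shapes the
endgame (`Endgame88/Inst.s15_of_inputs_order`) consumes:

* `pred_nsmul_c0`            : `(p - 1) • c₀ = 0`;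
* `exists_pos_nsmul_c0`      : `∃ n₀ > 0, n₀ • c₀ = 0`;
* `isOfFinAddOrder_c0`, `addOrderOf_c0_pos`, `addOrderOf_c0_dvd_pred`, `addOrderOf_c0_le`;
* `nOgg_dvd_addOrderOf_c0`   : Ogg's lower bound in the same vocabulary;
* `zsmul_c0_eq_zero_iff_of_dvd` helpers for the consumers.
-/
import Mathlib
import Fermat.Agent.MAZ.Ogg24.Main

set_option autoImplicit false

open ModularCurve AlgebraicCurve

noncomputable section

namespace Fermat.Agent.MAZ.CuspOrd22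

open Fermat.Agent.MAZ.HeckeCusp89

variable (p : ℕ) [NeZero p]

/-- `(p - 1) • c₀ = 0` in `J₀(p)(ℚbar)`, `p` prime. -/
theorem pred_nsmul_c0 (hp : p.Prime) : (p - 1) • c0 p = 0 :=
  Fermat.Agent.MAZ.Ogg24.pred_nsmul_c0 p hp

/-- **Brick F-E0 (CUSP)**: the cuspidal class `c₀` is torsion. -/
theorem exists_pos_nsmul_c0 (hp : p.Prime) : ∃ n₀ : ℕ, 0 < n₀ ∧ n₀ • c0 p = 0 :=
  ⟨p - 1, Nat.sub_pos_of_lt hp.one_lt, pred_nsmul_c0 p hp⟩

theorem isOfFinAddOrder_c0 (hp : p.Prime) : IsOfFinAddOrder (c0 p) :=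
  isOfFinAddOrder_iff_nsmul_eq_zero.mpr
    ⟨p - 1, Nat.sub_pos_of_lt hp.one_lt, pred_nsmul_c0 p hp⟩

theorem addOrderOf_c0_pos (hp : p.Prime) : 0 < addOrderOf (c0 p) :=
  (isOfFinAddOrder_c0 p hp).addOrderOf_pos

theorem addOrderOf_c0_dvd_pred (hp : p.Prime) : addOrderOf (c0 p) ∣ p - 1 :=
  addOrderOf_dvd_of_nsmul_eq_zero (pred_nsmul_c0 p hp)

theorem addOrderOf_c0_le (hp : p.Prime) : addOrderOf (c0 p) ≤ p - 1 :=
  Nat.le_of_dvd (Nat.sub_pos_of_lt hp.one_lt) (addOrderOf_c0_dvd_pred p hp)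

theorem addOrderOf_c0_lt (hp : p.Prime) : addOrderOf (c0 p) < p :=
  lt_of_le_of_lt (addOrderOf_c0_le p hp) (Nat.sub_lt hp.pos Nat.one_pos)

/-- `p` does not divide the order of `c₀`. -/
theorem not_dvd_addOrderOf_c0 (hp : p.Prime) : ¬ p ∣ addOrderOf (c0 p) := fun h =>
  absurd (Nat.le_of_dvd (addOrderOf_c0_pos p hp) h) (not_le.mpr (addOrderOf_c0_lt p hp))

/-- Every prime divisor of the order of `c₀` divides `p - 1` (so is `< p`). -/
theorem prime_dvd_pred_of_dvd_addOrderOf (hp : p.Prime) {r : ℕ} (hr : r ∣ addOrderOf (c0 p)) :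
    r ∣ p - 1 :=
  hr.trans (addOrderOf_c0_dvd_pred p hp)

theorem ne_of_dvd_addOrderOf (hp : p.Prime) {r : ℕ} (hr : r ∣ addOrderOf (c0 p)) : r ≠ p := by
  rintro rfl
  exact not_dvd_addOrderOf_c0 r hp hr

/-- Ogg's lower bound (helper24) in the same vocabulary:
`(p - 1)/gcd(p - 1, 12) ∣ ord(c₀) ∣ p - 1`. -/
theorem nOgg_dvd_addOrderOf_c0 (hp : p.Prime) :
    (p - 1) / Nat.gcd (p - 1) 12 ∣ addOrderOf (c0 p) :=
  Fermat.Agent.MAZ.Ogg24.nOgg_dvd_addOrderOf p hp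

/-- `c₀ ≠ 0` as soon as `p - 1 ∤ 12`, i.e. `p ∉ {2, 3, 5, 7, 13}` (genus `> 0`). -/
theorem c0_ne_zero (hp : p.Prime) (h12 : ¬ p - 1 ∣ 12) : c0 p ≠ 0 := by
  intro h0
  have h1 : addOrderOf (c0 p) = 1 := by rw [h0, addOrderOf_zero]
  have h2 := nOgg_dvd_addOrderOf_c0 p hp
  rw [h1, Nat.dvd_one] at h2
  apply h12
  have hg : Nat.gcd (p - 1) 12 ∣ p - 1 := Nat.gcd_dvd_left _ _
  have h3 : p - 1 = Nat.gcd (p - 1) 12 := by
    have := Nat.div_mul_cancel hg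
    rw [h2, one_mul] at this
    exact this.symm
  rw [h3]
  exact Nat.gcd_dvd_right _ _

/-- `p - 1 ∤ 12` for a prime `p ≥ 17` (or `p = 11`). -/
theorem not_pred_dvd_twelve {p : ℕ} (h : 14 ≤ p) : ¬ p - 1 ∣ 12 := fun hd =>
  absurd (Nat.le_of_dvd (by norm_num) hd) (by omega)

theorem c0_ne_zero_of_le (hp : p.Prime) (h : 14 ≤ p) : c0 p ≠ 0 :=
  c0_ne_zero p hp (not_pred_dvd_twelve h)

end Fermat.Agent.MAZ.CuspOrd22
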